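import Mathlib

/-!
# S52 piece (B3n): the 3-division quartic of the 5-congruent family has no polynomial root

For `A B : k[X]` put `q_{A,B}(x) = 3 x^4 + 6 A x^2 + 12 B x - A^2` (the 3-division polynomial of
`y^2 = x^3 + A x + B`).  If `4 A^3 + 27 B^2 = d0 * F^5` with `d0 ≠ 0`, `A`, `B` coprime, `F`
cube-free and non-constant, and `3 deg A ≤ 5 deg F`, then `q_{A,B}` has no root in `k[X]`.

Everything here is Mathlib-only.
-/

namespace Fermat.Agent.S52.H396

open Polynomial

/-- The key identity: modulo the quartic `q = 3P^4 + 6aP^2 + 12bP - a^2` one has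
`16 (4a^3 + 27b^2) P^2 = (3P^2 + a)^3 (P^2 + 3a)`. -/
theorem psi3_key_identity {R : Type*} [CommRing R] (a b P : R)
    (h : 3 * P ^ 4 + 6 * a * P ^ 2 + 12 * b * P - a ^ 2 = 0) :
    16 * (4 * a ^ 3 + 27 * b ^ 2) * P ^ 2 = (3 * P ^ 2 + a) ^ 3 * (P ^ 2 + 3 * a) := by
  linear_combination (36 * P * b - 9 * P ^ 4 - 18 * a * P ^ 2 + 3 * a ^ 2) * h

variable {k : Type*} [Field k]

theorem isUnit_C_of_ne_zero {c : k} (hc : c ≠ 0) : IsUnit (C c : k[X]) :=
  Polynomial.isUnit_C.mpr (IsUnit.mk0 c hc)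

theorem isUnit_two (h2 : (2 : k) ≠ 0) : IsUnit (2 : k[X]) := by
  have e : (2 : k[X]) = C (2 : k) := (map_ofNat C 2).symm
  rw [e]; exact isUnit_C_of_ne_zero h2

theorem isUnit_three (h3 : (3 : k) ≠ 0) : IsUnit (3 : k[X]) := by
  have e : (3 : k[X]) = C (3 : k) := (map_ofNat C 3).symm
  rw [e]; exact isUnit_C_of_ne_zero h3

theorem prime_dvd_of_dvd_unit_mul {π u x : k[X]} (hu : IsUnit u) (h : π ∣ u * x) : π ∣ x :=
  (hu.dvd_mul_left).mp h

/-- Core statement: cube-free `F`, coprime `A`, `B`. -/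
theorem no_poly_root_of_cubefree (h2 : (2 : k) ≠ 0) (h3 : (3 : k) ≠ 0)
    (A B F : k[X]) (d0 : k) (hd0 : d0 ≠ 0)
    (hD : 4 * A ^ 3 + 27 * B ^ 2 = C d0 * F ^ 5)
    (hAB : IsCoprime A B)
    (hF : ∀ π : k[X], Prime π → ¬ π ^ 3 ∣ F)
    (hdeg : 3 * A.natDegree ≤ 5 * F.natDegree) (hFpos : 0 < F.natDegree) :
    ∀ P : k[X], 3 * P ^ 4 + 6 * A * P ^ 2 + 12 * B * P - A ^ 2 ≠ 0 := by
  intro P hP
  have hF0 : F ≠ 0 := by
    rintro rfl
    simp at hFpos
  have u2 : IsUnit (2 : k[X]) := isUnit_two h2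
  have u3 : IsUnit (3 : k[X]) := isUnit_three h3
  have ud0 : IsUnit (C d0 : k[X]) := isUnit_C_of_ne_zero hd0
  have u8 : IsUnit (8 : k[X]) := by
    have : (8 : k[X]) = 2 ^ 3 := by norm_num
    rw [this]; exact u2.pow 3
  have u16 : IsUnit (16 : k[X]) := by
    have : (16 : k[X]) = 2 ^ 4 := by norm_num
    rw [this]; exact u2.pow 4
  have u27 : IsUnit (27 : k[X]) := by
    have : (27 : k[X]) = 3 ^ 3 := by norm_num
    rw [this]; exact u3.pow 3
  have key : 16 * (C d0 * F ^ 5) * P ^ 2 = (3 * P ^ 2 + A) ^ 3 * (P ^ 2 + 3 * A) := by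
    rw [← hD]; exact psi3_key_identity A B P hP
  -- Claim 1: a prime factor of `F` does not divide `P`.
  have claim1 : ∀ π : k[X], Prime π → π ∣ F → ¬ π ∣ P := by
    intro π hπ hπF hπP
    have hA2 : π ∣ A ^ 2 := by
      have e : A ^ 2 = P * (3 * P ^ 3 + 6 * A * P + 12 * B) := by
        linear_combination (-1 : k[X]) * hP
      rw [e]; exact Dvd.dvd.mul_right hπP _
    have hA : π ∣ A := hπ.dvd_of_dvd_pow hA2
    have hB2 : π ∣ 27 * B ^ 2 := by
      have e : 27 * B ^ 2 = C d0 * F ^ 5 - 4 * A ^ 3 := by linear_combination hD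
      rw [e]
      refine dvd_sub ?_ ?_
      · exact Dvd.dvd.mul_left (dvd_pow hπF (by norm_num)) _
      · exact Dvd.dvd.mul_left (dvd_pow hA (by norm_num)) _
    have hB : π ∣ B := hπ.dvd_of_dvd_pow (prime_dvd_of_dvd_unit_mul u27 hB2)
    exact hπ.not_isUnit (hAB.isUnit_of_dvd' hA hB)
  -- Claim 2: a prime factor of `F` does not divide `U = 3P^2 + A`.
  have hP0 : P ≠ 0 := by
    rintro rfl
    -- then `A^2 = 0`, so `A = 0`, so `B` is a unit, so `F` is a unit
    have hA : A = 0 := by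
      have : A ^ 2 = 0 := by linear_combination (-1 : k[X]) * hP
      exact pow_eq_zero_iff (by norm_num) |>.mp this
    subst hA
    have hBu : IsUnit B := isCoprime_zero_left.mp hAB
    have : IsUnit (C d0 * F ^ 5) := by
      rw [← hD]; simp only [ne_eq, OfNat.ofNat_ne_zero, not_false_eq_true, zero_pow, mul_zero,
        zero_add]
      exact u27.mul (hBu.pow 2)
    have hFu : IsUnit F := by
      have h5 : IsUnit (F ^ 5) := (IsUnit.mul_iff.mp this).2
      exact (isUnit_pow_iff (by norm_num)).mp h5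
    have := natDegree_eq_zero_of_isUnit hFu
    omega
  have hlhs0 : 16 * (C d0 * F ^ 5) * P ^ 2 ≠ 0 := by
    refine mul_ne_zero (mul_ne_zero u16.ne_zero (mul_ne_zero ud0.ne_zero (pow_ne_zero 5 hF0))) ?_
    exact pow_ne_zero 2 hP0
  have hU0 : 3 * P ^ 2 + A ≠ 0 := by
    intro h
    rw [h] at key
    simp only [ne_eq, OfNat.ofNat_ne_zero, not_false_eq_true, zero_pow, zero_mul] at key
    exact hlhs0 key
  have hV0 : P ^ 2 + 3 * A ≠ 0 := by
    intro h
    rw [h] at key
    simp only [mul_zero] at key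
    exact hlhs0 key
  have claim2 : ∀ π : k[X], Prime π → π ∣ F → ¬ π ∣ 3 * P ^ 2 + A := by
    intro π hπ hπF hπU
    have hπP : ¬ π ∣ P := claim1 π hπ hπF
    have hπV : ¬ π ∣ P ^ 2 + 3 * A := by
      intro hπV
      have h8 : π ∣ 8 * P ^ 2 := by
        have e : 8 * P ^ 2 = 3 * (3 * P ^ 2 + A) - (P ^ 2 + 3 * A) := by ring
        rw [e]
        exact dvd_sub (Dvd.dvd.mul_left hπU _) hπV
      exact hπP (hπ.dvd_of_dvd_pow (prime_dvd_of_dvd_unit_mul u8 h8))
    -- multiplicities
    have e := congrArg (emultiplicity π) key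
    rw [emultiplicity_mul hπ, emultiplicity_mul hπ, emultiplicity_mul hπ, emultiplicity_mul hπ,
      emultiplicity_pow hπ, emultiplicity_pow hπ, emultiplicity_pow hπ,
      emultiplicity_of_isUnit_right hπ.not_isUnit u16,
      emultiplicity_of_isUnit_right hπ.not_isUnit ud0,
      emultiplicity_eq_zero.mpr hπP, emultiplicity_eq_zero.mpr hπV] at e
    have finF : FiniteMultiplicity π F := FiniteMultiplicity.of_prime_left hπ hF0
    have finU : FiniteMultiplicity π (3 * P ^ 2 + A) := FiniteMultiplicity.of_prime_left hπ hU0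
    rw [finF.emultiplicity_eq_multiplicity, finU.emultiplicity_eq_multiplicity] at e
    have e' : 5 * multiplicity π F = 3 * multiplicity π (3 * P ^ 2 + A) := by
      have : ((5 * multiplicity π F : ℕ) : ℕ∞) = ((3 * multiplicity π (3 * P ^ 2 + A) : ℕ) : ℕ∞) := by
        push_cast
        simpa using e
      exact_mod_cast this
    have hlt : multiplicity π F < 3 := finF.multiplicity_lt_iff_not_dvd.mpr (hF π hπ)
    have hpos : 1 ≤ multiplicity π F := by
      have := finF.pow_dvd_iff_le_multiplicity (k := 1) |>.mp (by simpa using hπF)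
      exact this
    omega
  -- Claim 3: `F^5` divides `V = P^2 + 3A`.
  have hcop : IsCoprime F (3 * P ^ 2 + A) :=
    isCoprime_of_prime_dvd (fun h => hF0 h.1) claim2
  have hcop' : IsCoprime (F ^ 5) ((3 * P ^ 2 + A) ^ 3) := hcop.pow
  have hdvd : F ^ 5 ∣ P ^ 2 + 3 * A := by
    have : F ^ 5 ∣ (3 * P ^ 2 + A) ^ 3 * (P ^ 2 + 3 * A) := by
      rw [← key]
      exact ⟨16 * C d0 * P ^ 2, by ring⟩
    exact hcop'.dvd_of_dvd_mul_left this
  -- degree bounds
  have h27 : (27 : k) ≠ 0 := by
    have : (27 : k) = 3 ^ 3 := by norm_num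
    rw [this]; exact pow_ne_zero 3 h3
  have hnum : ∀ (n : ℕ) [n.AtLeastTwo] (Q : k[X]),
      (OfNat.ofNat n * Q : k[X]).natDegree ≤ Q.natDegree := by
    intro n _ Q
    refine (natDegree_mul_le).trans ?_
    simp
  have hBdeg : 2 * B.natDegree ≤ 5 * F.natDegree := by
    have e : 27 * B ^ 2 = C d0 * F ^ 5 - 4 * A ^ 3 := by linear_combination hD
    have h1 : (27 * B ^ 2 : k[X]).natDegree = 2 * B.natDegree := by
      rw [show (27 : k[X]) = C (27 : k) from (map_ofNat C 27).symm, natDegree_C_mul h27,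
        natDegree_pow]
    have h2' : (C d0 * F ^ 5 - 4 * A ^ 3 : k[X]).natDegree ≤ 5 * F.natDegree := by
      refine (natDegree_sub_le _ _).trans (max_le ?_ ?_)
      · exact (natDegree_C_mul_le _ _).trans (natDegree_pow_le)
      · exact ((hnum 4 _).trans natDegree_pow_le).trans hdeg
    rw [← h1, e]; exact h2'
  have hPdeg : 6 * P.natDegree ≤ 5 * F.natDegree := by
    by_contra hcon
    rw [not_le] at hcon
    have e : 3 * P ^ 4 = A ^ 2 - 6 * A * P ^ 2 - 12 * B * P := by linear_combination hP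
    have h1 : (3 * P ^ 4 : k[X]).natDegree = 4 * P.natDegree := by
      rw [show (3 : k[X]) = C (3 : k) from (map_ofNat C 3).symm, natDegree_C_mul h3,
        natDegree_pow]
    have hA2 : (A ^ 2 : k[X]).natDegree ≤ 2 * A.natDegree := natDegree_pow_le
    have hAP : (6 * A * P ^ 2 : k[X]).natDegree ≤ A.natDegree + 2 * P.natDegree := by
      rw [mul_assoc]
      refine (hnum 6 _).trans (natDegree_mul_le.trans ?_)
      exact Nat.add_le_add_left natDegree_pow_le _
    have hBP : (12 * B * P : k[X]).natDegree ≤ B.natDegree + P.natDegree := by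
      rw [mul_assoc]
      exact (hnum 12 _).trans natDegree_mul_le
    have h2' : (A ^ 2 - 6 * A * P ^ 2 - 12 * B * P : k[X]).natDegree < 4 * P.natDegree := by
      refine lt_of_le_of_lt (natDegree_sub_le _ _) (max_lt ?_ ?_)
      · refine lt_of_le_of_lt (natDegree_sub_le _ _) (max_lt ?_ ?_)
        · omega
        · omega
      · omega
    rw [e] at h1
    omega
  have hVdeg : (P ^ 2 + 3 * A : k[X]).natDegree ≤ max (2 * P.natDegree) A.natDegree := by
    refine (natDegree_add_le _ _).trans (max_le_max natDegree_pow_le (hnum 3 _))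
  have hF5 : (F ^ 5).natDegree ≤ (P ^ 2 + 3 * A : k[X]).natDegree :=
    natDegree_le_of_dvd hdvd hV0
  rw [natDegree_pow] at hF5
  have := hF5.trans hVdeg
  rcases le_max_iff.mp this with h | h <;> omega

/-- Arithmetic in `ℕ∞` used for the squarefree case. -/
theorem enat_aux (x y : ℕ∞) (hx : 1 ≤ x) (hy : 1 ≤ y) :
    (3 * x ≠ 2 * y → min (3 * x) (2 * y) ≠ 5) ∧ (3 * x = 2 * y → ¬ (3 * x ≤ 5)) := by
  induction x using ENat.recTopCoe with
  | top =>
    induction y using ENat.recTopCoe with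
    | top => simp
    | coe n =>
      have hn : 1 ≤ n := by exact_mod_cast hy
      have e : (3 : ℕ∞) * ⊤ = ⊤ := by simp
      rw [e]
      constructor
      · intro _ h
        rw [min_eq_right le_top] at h
        have : ((2 * n : ℕ) : ℕ∞) = ((5 : ℕ) : ℕ∞) := by push_cast; exact h
        have := ENat.natCast_inj.mp this
        omega
      · intro h
        exact absurd h.symm (by
          have : ((2 : ℕ∞) * (n : ℕ∞)) = ((2 * n : ℕ) : ℕ∞) := by push_cast; rfl
          rw [this]; exact ENat.natCast_ne_top _)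
  | coe m =>
    have hm : 1 ≤ m := by exact_mod_cast hx
    induction y using ENat.recTopCoe with
    | top =>
      have e : (2 : ℕ∞) * ⊤ = ⊤ := by simp
      rw [e]
      constructor
      · intro _ h
        rw [min_eq_left le_top] at h
        have : ((3 * m : ℕ) : ℕ∞) = ((5 : ℕ) : ℕ∞) := by push_cast; exact h
        have := ENat.natCast_inj.mp this
        omega
      · intro h
        exact absurd h (by
          have : ((3 : ℕ∞) * (m : ℕ∞)) = ((3 * m : ℕ) : ℕ∞) := by push_cast; rfl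
          rw [this]; exact ENat.natCast_ne_top _)
    | coe n =>
      have hn : 1 ≤ n := by exact_mod_cast hy
      have e3 : ((3 : ℕ∞) * (m : ℕ∞)) = ((3 * m : ℕ) : ℕ∞) := by push_cast; rfl
      have e2 : ((2 : ℕ∞) * (n : ℕ∞)) = ((2 * n : ℕ) : ℕ∞) := by push_cast; rfl
      rw [e3, e2]
      constructor
      · intro _ h
        have h5 : (5 : ℕ∞) = ((5 : ℕ) : ℕ∞) := rfl
        rw [h5] at h
        rcases le_total (3 * m) (2 * n) with h' | h'
        · rw [min_eq_left (by exact_mod_cast h')] at h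
          have := ENat.natCast_inj.mp h
          omega
        · rw [min_eq_right (by exact_mod_cast h')] at h
          have := ENat.natCast_inj.mp h
          omega
      · intro h h'
        have h5 : (5 : ℕ∞) = ((5 : ℕ) : ℕ∞) := rfl
        rw [h5, ENat.natCast_le_natCast] at h'
        rw [ENat.natCast_inj] at h
        omega

/-- If `4A^3 + 27B^2 = d0 F^5` with `F` squarefree and nonzero, then `A` and `B` are coprime. -/
theorem isCoprime_of_squarefree (h2 : (2 : k) ≠ 0) (h3 : (3 : k) ≠ 0)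
    (A B F : k[X]) (d0 : k) (hd0 : d0 ≠ 0)
    (hD : 4 * A ^ 3 + 27 * B ^ 2 = C d0 * F ^ 5) (hF : Squarefree F) (hF0 : F ≠ 0) :
    IsCoprime A B := by
  have u2 : IsUnit (2 : k[X]) := isUnit_two h2
  have u3 : IsUnit (3 : k[X]) := isUnit_three h3
  have ud0 : IsUnit (C d0 : k[X]) := isUnit_C_of_ne_zero hd0
  have u4 : IsUnit (4 : k[X]) := by
    have : (4 : k[X]) = 2 ^ 2 := by norm_num
    rw [this]; exact u2.pow 2
  have u27 : IsUnit (27 : k[X]) := by
    have : (27 : k[X]) = 3 ^ 3 := by norm_num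
    rw [this]; exact u3.pow 3
  refine isCoprime_of_prime_dvd ?_ ?_
  · rintro ⟨rfl, rfl⟩
    have : C d0 * F ^ 5 = 0 := by rw [← hD]; ring
    exact (mul_ne_zero ud0.ne_zero (pow_ne_zero 5 hF0)) this
  · intro π hπ hπA hπB
    -- `π ∣ F`
    have hπF5 : π ∣ C d0 * F ^ 5 := by
      rw [← hD]
      exact dvd_add (Dvd.dvd.mul_left (dvd_pow hπA (by norm_num)) _)
        (Dvd.dvd.mul_left (dvd_pow hπB (by norm_num)) _)
    have hπF : π ∣ F := hπ.dvd_of_dvd_pow (prime_dvd_of_dvd_unit_mul ud0 hπF5)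
    have eF : emultiplicity π F = 1 := by
      refine le_antisymm ?_ ?_
      · rcases (squarefree_iff_emultiplicity_le_one F).mp hF π with h | h
        · exact h
        · exact absurd h hπ.not_isUnit
      · have := (pow_dvd_iff_le_emultiplicity (a := π) (b := F) (k := 1)).mp (by simpa using hπF)
        simpa using this
    have hxA : 1 ≤ emultiplicity π A := by
      have := (pow_dvd_iff_le_emultiplicity (a := π) (b := A) (k := 1)).mp (by simpa using hπA)
      simpa using this
    have hxB : 1 ≤ emultiplicity π B := by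
      have := (pow_dvd_iff_le_emultiplicity (a := π) (b := B) (k := 1)).mp (by simpa using hπB)
      simpa using this
    have e := congrArg (emultiplicity π) hD
    have eR : emultiplicity π (C d0 * F ^ 5) = 5 := by
      rw [emultiplicity_mul hπ, emultiplicity_pow hπ,
        emultiplicity_of_isUnit_right hπ.not_isUnit ud0, eF]
      simp
    have eA : emultiplicity π (4 * A ^ 3) = 3 * emultiplicity π A := by
      rw [emultiplicity_mul hπ, emultiplicity_pow hπ,
        emultiplicity_of_isUnit_right hπ.not_isUnit u4]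
      simp
    have eB : emultiplicity π (27 * B ^ 2) = 2 * emultiplicity π B := by
      rw [emultiplicity_mul hπ, emultiplicity_pow hπ,
        emultiplicity_of_isUnit_right hπ.not_isUnit u27]
      simp
    rw [eR] at e
    obtain ⟨aux1, aux2⟩ := enat_aux _ _ hxA hxB
    by_cases hne : 3 * emultiplicity π A = 2 * emultiplicity π B
    · refine aux2 hne ?_
      have := min_le_emultiplicity_add (p := π) (a := 4 * A ^ 3) (b := 27 * B ^ 2)
      rw [e, eA, eB, ← hne, min_self] at this
      exact this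
    · refine aux1 hne ?_
      have := emultiplicity_add_eq_min (p := π) (a := 4 * A ^ 3) (b := 27 * B ^ 2)
        (by rw [eA, eB]; exact hne)
      rw [e, eA, eB] at this
      exact this.symm

/-- Squarefree version (general field with `2, 3 ≠ 0`). -/
theorem no_poly_root_of_squarefree (h2 : (2 : k) ≠ 0) (h3 : (3 : k) ≠ 0)
    (A B F : k[X]) (d0 : k) (hd0 : d0 ≠ 0)
    (hD : 4 * A ^ 3 + 27 * B ^ 2 = C d0 * F ^ 5) (hF : Squarefree F)
    (hdeg : 3 * A.natDegree ≤ 5 * F.natDegree) (hFpos : 0 < F.natDegree) :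
    ∀ P : k[X], 3 * P ^ 4 + 6 * A * P ^ 2 + 12 * B * P - A ^ 2 ≠ 0 := by
  have hF0 : F ≠ 0 := by
    rintro rfl
    simp at hFpos
  refine no_poly_root_of_cubefree h2 h3 A B F d0 hd0 hD
    (isCoprime_of_squarefree h2 h3 A B F d0 hd0 hD hF hF0) ?_ hdeg hFpos
  intro π hπ h
  have : π * π ∣ F := dvd_trans ⟨π, by ring⟩ h
  exact hπ.not_isUnit (hF π this)

/-- **B3n**, in the exact shape of helper232's interface `no_poly_root`. -/
theorem no_poly_root (A B F : Polynomial ℚ) (d0 : ℚ) (hd0 : d0 ≠ 0)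
    (hD : 4 * A ^ 3 + 27 * B ^ 2 = Polynomial.C d0 * F ^ 5) (hF : Squarefree F)
    (hdeg : 3 * A.natDegree ≤ 5 * F.natDegree) (hFpos : 0 < F.natDegree) (hA : A ≠ 0) :
    ∀ P : Polynomial ℚ, 3 * P ^ 4 + 6 * A * P ^ 2 + 12 * B * P - A ^ 2 ≠ 0 :=
  have _ := hA
  no_poly_root_of_squarefree (by norm_num) (by norm_num) A B F d0 hd0 hD hF hdeg hFpos

end Fermat.Agent.S52.H396
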