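import Fermat.Agent.S52.H396.NoRoot

/-!
# S52 piece (B3n), Mason–Stothers version

Same conclusion as `no_poly_root_of_squarefree`, but the squarefreeness of `F` is replaced by
coprimality of `A`, `B` and degree inequalities (satisfied by `deg A ≤ 20`, `deg B ≤ 30`,
`deg F = 12`): the polynomial `abc` theorem (Mathlib `Polynomial.abc`) then forces `F` to be
cube-free.  Characteristic zero.  Also: base change of the coefficient field and versions for
`c4`, `c6` and for Mathlib's `WeierstrassCurve.Ψ₃`.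
-/

namespace Fermat.Agent.S52.H396

open Polynomial UniqueFactorizationMonoid UniqueFactorizationDomain

variable {k : Type*} [Field k]

/-- `F` is non-constant, `A`, `B` coprime and `4A^3 + 27B^2 = d0 F^5`: then `A ≠ 0` and `B ≠ 0`. -/
theorem ne_zero_of_coprime (h2 : (2 : k) ≠ 0) (h3 : (3 : k) ≠ 0)
    (A B F : k[X]) (d0 : k) (hd0 : d0 ≠ 0)
    (hD : 4 * A ^ 3 + 27 * B ^ 2 = C d0 * F ^ 5)
    (hAB : IsCoprime A B) (hFpos : 0 < F.natDegree) : A ≠ 0 ∧ B ≠ 0 := by
  have u2 : IsUnit (2 : k[X]) := isUnit_two h2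
  have u3 : IsUnit (3 : k[X]) := isUnit_three h3
  have ud0 : IsUnit (C d0 : k[X]) := isUnit_C_of_ne_zero hd0
  have u4 : IsUnit (4 : k[X]) := by
    have : (4 : k[X]) = 2 ^ 2 := by norm_num
    rw [this]; exact u2.pow 2
  have u27 : IsUnit (27 : k[X]) := by
    have : (27 : k[X]) = 3 ^ 3 := by norm_num
    rw [this]; exact u3.pow 3
  have hnotunit : ¬ IsUnit (C d0 * F ^ 5) := by
    intro h
    have h5 : IsUnit (F ^ 5) := (IsUnit.mul_iff.mp h).2
    have hFu : IsUnit F := (isUnit_pow_iff (by norm_num)).mp h5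
    have := natDegree_eq_zero_of_isUnit hFu
    omega
  constructor
  · rintro rfl
    have hBu : IsUnit B := isCoprime_zero_left.mp hAB
    apply hnotunit
    rw [← hD]
    simp only [ne_eq, OfNat.ofNat_ne_zero, not_false_eq_true, zero_pow, mul_zero, zero_add]
    exact u27.mul (hBu.pow 2)
  · rintro rfl
    have hAu : IsUnit A := isCoprime_zero_right.mp hAB
    apply hnotunit
    rw [← hD]
    simp only [ne_eq, OfNat.ofNat_ne_zero, not_false_eq_true, zero_pow, mul_zero, add_zero]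
    exact u4.mul (hAu.pow 3)

/-- Mason–Stothers: under the degree hypothesis `deg A + deg B ≤ 4 deg F + 2`, the polynomial `F`
is cube-free. -/
theorem cubefree_of_abc [CharZero k] [DecidableEq k]
    (A B F : k[X]) (d0 : k) (hd0 : d0 ≠ 0)
    (hD : 4 * A ^ 3 + 27 * B ^ 2 = C d0 * F ^ 5)
    (hAB : IsCoprime A B)
    (hsum : A.natDegree + B.natDegree ≤ 4 * F.natDegree + 2) (hFpos : 0 < F.natDegree) :
    ∀ π : k[X], Prime π → ¬ π ^ 3 ∣ F := by
  have h2 : (2 : k) ≠ 0 := two_ne_zero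
  have h3 : (3 : k) ≠ 0 := three_ne_zero
  have hF0 : F ≠ 0 := by
    rintro rfl
    simp at hFpos
  have u2 : IsUnit (2 : k[X]) := isUnit_two h2
  have u3 : IsUnit (3 : k[X]) := isUnit_three h3
  have ud0 : IsUnit (C d0 : k[X]) := isUnit_C_of_ne_zero hd0
  have u4 : IsUnit (4 : k[X]) := by
    have : (4 : k[X]) = 2 ^ 2 := by norm_num
    rw [this]; exact u2.pow 2
  have u27 : IsUnit (27 : k[X]) := by
    have : (27 : k[X]) = 3 ^ 3 := by norm_num
    rw [this]; exact u3.pow 3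
  obtain ⟨hA0, hB0⟩ := ne_zero_of_coprime h2 h3 A B F d0 hd0 hD hAB hFpos
  have ha : (4 * A ^ 3 : k[X]) ≠ 0 := mul_ne_zero u4.ne_zero (pow_ne_zero 3 hA0)
  have hb : (27 * B ^ 2 : k[X]) ≠ 0 := mul_ne_zero u27.ne_zero (pow_ne_zero 2 hB0)
  have hc : (-(C d0 * F ^ 5) : k[X]) ≠ 0 :=
    neg_ne_zero.mpr (mul_ne_zero ud0.ne_zero (pow_ne_zero 5 hF0))
  have hab : IsCoprime (4 * A ^ 3 : k[X]) (27 * B ^ 2) := by
    have h1 : IsCoprime (A ^ 3) (B ^ 2) := hAB.pow
    exact (isCoprime_mul_unit_left_left u4 _ _).mpr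
      ((isCoprime_mul_unit_left_right u27 _ _).mpr h1)
  have hsum0 : (4 * A ^ 3 : k[X]) + 27 * B ^ 2 + (-(C d0 * F ^ 5)) = 0 := by
    rw [hD]; ring
  have hcdeg : (-(C d0 * F ^ 5) : k[X]).natDegree = 5 * F.natDegree := by
    rw [natDegree_neg, natDegree_C_mul hd0, natDegree_pow]
  have hrad : (radical ((4 * A ^ 3 : k[X]) * (27 * B ^ 2) * (-(C d0 * F ^ 5)))).natDegree
      ≤ A.natDegree + B.natDegree + (radical F).natDegree := by
    have e1 : radical (4 * A ^ 3 : k[X]) = radical A := by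
      rw [radical_mul_of_isUnit_left u4, radical_pow A (by norm_num)]
    have e2 : radical (27 * B ^ 2 : k[X]) = radical B := by
      rw [radical_mul_of_isUnit_left u27, radical_pow B (by norm_num)]
    have e3 : radical (-(C d0 * F ^ 5) : k[X]) = radical F := by
      rw [radical_neg, radical_mul_of_isUnit_left ud0, radical_pow F (by norm_num)]
    have hdvd : radical ((4 * A ^ 3 : k[X]) * (27 * B ^ 2) * (-(C d0 * F ^ 5)))
        ∣ radical A * radical B * radical F := by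
      refine dvd_trans radical_mul_dvd ?_
      rw [e3]
      refine mul_dvd_mul_right ?_ _
      refine dvd_trans radical_mul_dvd ?_
      rw [e1, e2]
    have hne : radical A * radical B * radical F ≠ 0 :=
      mul_ne_zero (mul_ne_zero radical_ne_zero radical_ne_zero) radical_ne_zero
    refine (natDegree_le_of_dvd hdvd hne).trans ?_
    rw [natDegree_mul (mul_ne_zero radical_ne_zero radical_ne_zero) radical_ne_zero,
      natDegree_mul radical_ne_zero radical_ne_zero]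
    have hA := natDegree_radical_le (a := A)
    have hB := natDegree_radical_le (a := B)
    omega
  have hradF : F.natDegree ≤ (radical F).natDegree + 1 := by
    rcases Polynomial.abc ha hb hc hab hsum0 with ⟨-, -, h⟩ | ⟨-, -, h⟩
    · rw [hcdeg] at h
      omega
    · have := Polynomial.derivative_eq_zero.mp h
      rw [hcdeg] at this
      omega
  intro π hπ ⟨G, hG⟩
  have hG0 : G ≠ 0 := by
    rintro rfl
    rw [mul_zero] at hG
    exact hF0 hG
  have hπ0 : π ≠ 0 := hπ.ne_zero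
  have hπdeg : 1 ≤ π.natDegree := by
    by_contra hcon
    have h0 : π.natDegree = 0 := by omega
    have : IsUnit π := by
      rw [Polynomial.isUnit_iff]
      refine ⟨π.coeff 0, ?_, (eq_C_of_natDegree_eq_zero h0).symm⟩
      rw [isUnit_iff_ne_zero]
      intro hz
      apply hπ0
      rw [eq_C_of_natDegree_eq_zero h0, hz, map_zero]
    exact hπ.not_isUnit this
  have hFdeg : F.natDegree = 3 * π.natDegree + G.natDegree := by
    rw [hG, natDegree_mul (pow_ne_zero 3 hπ0) hG0, natDegree_pow]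
  have hradle : (radical F).natDegree ≤ π.natDegree + G.natDegree := by
    have hdvd : radical F ∣ π * G := by
      rw [hG]
      refine dvd_trans radical_mul_dvd ?_
      rw [radical_pow π (by norm_num)]
      exact mul_dvd_mul radical_dvd_self radical_dvd_self
    have := natDegree_le_of_dvd hdvd (mul_ne_zero hπ0 hG0)
    rwa [natDegree_mul hπ0 hG0] at this
  omega

/-- **B3n, Mason–Stothers version**: no squarefreeness hypothesis on `F`. -/
theorem no_poly_root_of_coprime [CharZero k]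
    (A B F : k[X]) (d0 : k) (hd0 : d0 ≠ 0)
    (hD : 4 * A ^ 3 + 27 * B ^ 2 = C d0 * F ^ 5)
    (hAB : IsCoprime A B)
    (hsum : A.natDegree + B.natDegree ≤ 4 * F.natDegree + 2)
    (hdeg : 3 * A.natDegree ≤ 5 * F.natDegree) (hFpos : 0 < F.natDegree) :
    ∀ P : k[X], 3 * P ^ 4 + 6 * A * P ^ 2 + 12 * B * P - A ^ 2 ≠ 0 := by
  classical
  exact no_poly_root_of_cubefree two_ne_zero three_ne_zero A B F d0 hd0 hD hAB
    (cubefree_of_abc A B F d0 hd0 hD hAB hsum hFpos) hdeg hFpos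

/-- Base change of the coefficient field: it suffices to exclude roots over a bigger field. -/
theorem no_poly_root_of_map {K : Type*} [Field K] (f : k →+* K) (A B : k[X])
    (h : ∀ Q : K[X], 3 * Q ^ 4 + 6 * A.map f * Q ^ 2 + 12 * B.map f * Q - (A.map f) ^ 2 ≠ 0) :
    ∀ P : k[X], 3 * P ^ 4 + 6 * A * P ^ 2 + 12 * B * P - A ^ 2 ≠ 0 := by
  intro P hP
  apply h (P.map f)
  have := congrArg (Polynomial.map f) hP
  simpa using this

theorem natDegree_neg_ofNat_mul (n : ℕ) [n.AtLeastTwo] (hn : (OfNat.ofNat n : k) ≠ 0)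
    (Q : k[X]) : (-(OfNat.ofNat n : k[X]) * Q).natDegree = Q.natDegree := by
  have e : (-(OfNat.ofNat n : k[X])) = C (-(OfNat.ofNat n : k)) := by
    rw [map_neg, map_ofNat]
  rw [e, natDegree_C_mul (neg_ne_zero.mpr hn)]

/-- **B3n for `c4`, `c6`** (Mason–Stothers version, characteristic zero):
`C4^3 - C6^2 = d0 F^5`, `C4`, `C6` coprime, `deg C4 + deg C6 ≤ 4 deg F + 2`,
`3 deg C4 ≤ 5 deg F` (e.g. degrees `≤ 20`, `≤ 30`, `= 12`).  Then the 3-division quartic of
`y^2 = x^3 - 27 C4 x - 54 C6` has no root in `k[X]`. -/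
theorem no_poly_root_c4c6 [CharZero k]
    (C4 C6 F : k[X]) (d0 : k) (hd0 : d0 ≠ 0)
    (hD : C4 ^ 3 - C6 ^ 2 = C d0 * F ^ 5)
    (hcop : IsCoprime C4 C6)
    (hsum : C4.natDegree + C6.natDegree ≤ 4 * F.natDegree + 2)
    (hdeg : 3 * C4.natDegree ≤ 5 * F.natDegree) (hFpos : 0 < F.natDegree) :
    ∀ P : k[X], 3 * P ^ 4 + 6 * (-27 * C4) * P ^ 2 + 12 * (-54 * C6) * P - (-27 * C4) ^ 2 ≠ 0 := by
  have h27 : (27 : k) ≠ 0 := by norm_num
  have h54 : (54 : k) ≠ 0 := by norm_num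
  have h78732 : (78732 : k) ≠ 0 := by norm_num
  have e27 : (-27 * C4 : k[X]).natDegree = C4.natDegree := natDegree_neg_ofNat_mul 27 h27 C4
  have e54 : (-54 * C6 : k[X]).natDegree = C6.natDegree := natDegree_neg_ofNat_mul 54 h54 C6
  have u27 : IsUnit (-27 : k[X]) := by
    have e : (-27 : k[X]) = C (-27 : k) := by rw [map_neg, map_ofNat]
    rw [e]; exact isUnit_C_of_ne_zero (neg_ne_zero.mpr h27)
  have u54 : IsUnit (-54 : k[X]) := by
    have e : (-54 : k[X]) = C (-54 : k) := by rw [map_neg, map_ofNat]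
    rw [e]; exact isUnit_C_of_ne_zero (neg_ne_zero.mpr h54)
  refine no_poly_root_of_coprime (-27 * C4) (-54 * C6) F (-78732 * d0)
    (mul_ne_zero (neg_ne_zero.mpr h78732) hd0) ?_ ?_ ?_ ?_ hFpos
  · have e : (C (-78732 * d0) : k[X]) = -78732 * C d0 := by
      rw [map_mul, map_neg, map_ofNat]
    rw [e]
    linear_combination (-78732 : k[X]) * hD
  · exact (isCoprime_mul_unit_left_left u27 _ _).mpr
      ((isCoprime_mul_unit_left_right u54 _ _).mpr hcop)
  · rw [e27, e54]; exact hsum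
  · rw [e27]; exact hdeg

/-- **B3n for `c4`, `c6`**, squarefree version (any field with `2, 3 ≠ 0`). -/
theorem no_poly_root_c4c6_of_squarefree (h2 : (2 : k) ≠ 0) (h3 : (3 : k) ≠ 0)
    (C4 C6 F : k[X]) (d0 : k) (hd0 : d0 ≠ 0)
    (hD : C4 ^ 3 - C6 ^ 2 = C d0 * F ^ 5) (hF : Squarefree F)
    (hdeg : 3 * C4.natDegree ≤ 5 * F.natDegree) (hFpos : 0 < F.natDegree) :
    ∀ P : k[X], 3 * P ^ 4 + 6 * (-27 * C4) * P ^ 2 + 12 * (-54 * C6) * P - (-27 * C4) ^ 2 ≠ 0 := by
  have h27 : (27 : k) ≠ 0 := by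
    have : (27 : k) = 3 ^ 3 := by norm_num
    rw [this]; exact pow_ne_zero 3 h3
  have h78732 : (78732 : k) ≠ 0 := by
    have : (78732 : k) = 2 ^ 2 * 3 ^ 9 := by norm_num
    rw [this]; exact mul_ne_zero (pow_ne_zero 2 h2) (pow_ne_zero 9 h3)
  have e27 : (-27 * C4 : k[X]).natDegree = C4.natDegree := natDegree_neg_ofNat_mul 27 h27 C4
  refine no_poly_root_of_squarefree h2 h3 (-27 * C4) (-54 * C6) F (-78732 * d0)
    (mul_ne_zero (neg_ne_zero.mpr h78732) hd0) ?_ hF ?_ hFpos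
  · have e : (C (-78732 * d0) : k[X]) = -78732 * C d0 := by
      rw [map_mul, map_neg, map_ofNat]
    rw [e]
    linear_combination (-78732 : k[X]) * hD
  · rw [e27]; exact hdeg

/-- Long Weierstrass form versus short form of the 3-division polynomial (any commutative ring). -/
theorem psi3_long_short {R : Type*} [CommRing R] (W : WeierstrassCurve R) (x : R) :
    3 * (36 * x + 3 * W.b₂) ^ 4 + 6 * (-27 * W.c₄) * (36 * x + 3 * W.b₂) ^ 2
      + 12 * (-54 * W.c₆) * (36 * x + 3 * W.b₂) - (-27 * W.c₄) ^ 2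
    = 36 ^ 4 * (3 * x ^ 4 + W.b₂ * x ^ 3 + 3 * W.b₄ * x ^ 2 + 3 * W.b₆ * x + W.b₈) := by
  simp only [WeierstrassCurve.c₄, WeierstrassCurve.c₆, WeierstrassCurve.b₂, WeierstrassCurve.b₄,
    WeierstrassCurve.b₆, WeierstrassCurve.b₈]
  ring

/-- **B3n for a Weierstrass curve over `k[X]`** (long form, Mason–Stothers version): the
3-division polynomial `3x^4 + b₂x^3 + 3b₄x^2 + 3b₆x + b₈` has no root in `k[X]`. -/
theorem no_poly_root_weierstrass [CharZero k] (W : WeierstrassCurve k[X])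
    (F : k[X]) (d0 : k) (hd0 : d0 ≠ 0)
    (hD : W.c₄ ^ 3 - W.c₆ ^ 2 = C d0 * F ^ 5)
    (hcop : IsCoprime W.c₄ W.c₆)
    (hsum : W.c₄.natDegree + W.c₆.natDegree ≤ 4 * F.natDegree + 2)
    (hdeg : 3 * W.c₄.natDegree ≤ 5 * F.natDegree) (hFpos : 0 < F.natDegree) :
    ∀ P : k[X], 3 * P ^ 4 + W.b₂ * P ^ 3 + 3 * W.b₄ * P ^ 2 + 3 * W.b₆ * P + W.b₈ ≠ 0 := by
  intro P hP
  refine no_poly_root_c4c6 W.c₄ W.c₆ F d0 hd0 hD hcop hsum hdeg hFpos (36 * P + 3 * W.b₂) ?_
  rw [psi3_long_short W P, hP, mul_zero]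

/-- The same statement for Mathlib's `WeierstrassCurve.Ψ₃`. -/
theorem no_root_Ψ₃ [CharZero k] (W : WeierstrassCurve k[X])
    (F : k[X]) (d0 : k) (hd0 : d0 ≠ 0)
    (hD : W.c₄ ^ 3 - W.c₆ ^ 2 = C d0 * F ^ 5)
    (hcop : IsCoprime W.c₄ W.c₆)
    (hsum : W.c₄.natDegree + W.c₆.natDegree ≤ 4 * F.natDegree + 2)
    (hdeg : 3 * W.c₄.natDegree ≤ 5 * F.natDegree) (hFpos : 0 < F.natDegree) :
    ∀ P : k[X], W.Ψ₃.eval P ≠ 0 := by
  intro P hP
  refine no_poly_root_weierstrass W F d0 hd0 hD hcop hsum hdeg hFpos P ?_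
  rw [← hP]
  simp [WeierstrassCurve.Ψ₃]

end Fermat.Agent.S52.H396
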